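import Fermat.Agent.S19.H32_Wiring
import Fermat.Agent.S17.H8_W14

/-!
# S19: finiteness and continuity of `J₀(p)[ℓ^k]` (G-FL package ASM-W, helper32)

The first two conjuncts of `H32.Stmt_FLGen` hold unconditionally:

* `tors_finite p n hn : Finite (Tors p n)` for `n ≠ 0` (from helper8's W1);
* `tors_act_cont p n hn` : the Galois group of a number field acts trivially on `Tors p n`
  (from helper8's W4 and finiteness).

`Stmt_FLGenCore` is `Stmt_FLGen` without these two conjuncts, and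
`result_of_FLGenCore : Stmt_FLGenCore → (frozen statement S19)`.
-/

set_option autoImplicit false
set_option linter.style.haveILetI false

open ModularCurve

namespace Fermat.Agent.S19.H32

open Fermat.Agent.Lib.HopfOrder Fermat.Agent.Lib.HopfOrderLoc Fermat.Agent.S19

/-- `J₀(p)[n]` is finite for `n ≠ 0`. -/
theorem tors_finite (p : ℕ) [NeZero p] (n : ℤ) (hn : n ≠ 0) : Finite (Tors p n) := by
  have h := Fermat.Agent.S17.H8.stmt_torsion_finite p n.natAbs (Int.natAbs_ne_zero.mpr hn)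
  have h' : (Submodule.torsionBy ℤ (JZero p) n : Set (JZero p)) ⊆
      {t : JZero p | n.natAbs • t = 0} := by
    intro x hx
    have hx' : n • x = 0 := (Submodule.mem_torsionBy_iff _ _).mp hx
    change n.natAbs • x = 0
    rcases Int.natAbs_eq n with h1 | h1
    · rw [← natCast_zsmul, ← h1]; exact hx'
    · have : (n.natAbs : ℤ) = -n := by omega
      rw [← natCast_zsmul, this, neg_smul, hx', neg_zero]
  exact (h.subset h').to_subtype

/-- The Galois group of some number field acts trivially on `J₀(p)[n]`, `n ≠ 0`. -/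
theorem tors_act_cont (p : ℕ) [NeZero p] (n : ℤ) (hn : n ≠ 0) :
    ∃ L : IntermediateField ℚ (AlgebraicClosure ℚ), FiniteDimensional ℚ L ∧
      ∀ σ ∈ L.fixingSubgroup, ∀ x : Tors p n, torsAct p n σ x = x := by
  haveI := tors_finite p n hn
  have hos := Fermat.Agent.S17.H8.stmt_open_stab p
  choose F hF1 hF2 using hos
  letI := Fintype.ofFinite (Tors p n)
  refine ⟨⨆ x : Tors p n, F (x : JZero p), ?_, ?_⟩
  · haveI : ∀ x : Tors p n, FiniteDimensional ℚ (F (x : JZero p)) := fun x => hF1 _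
    exact IntermediateField.finiteDimensional_iSup_of_finite
  · intro σ hσ x
    refine Subtype.ext (hF2 (x : JZero p) σ ?_)
    exact IntermediateField.fixingSubgroup_antitone (le_iSup (fun x : Tors p n => F (x : JZero p)) x) hσ

/-- **Geometric input of S19, core form** (local generators at one place over `ℓ`):
`Stmt_FLGen` without the finiteness and continuity conjuncts. -/
def Stmt_FLGenCore : Prop :=
  ∀ (p : ℕ) [NeZero p] (ℓ : ℕ) [Fact ℓ.Prime], ¬ ℓ ∣ p → ∀ k : ℕ,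
    ∃ A : ValuationSubring (AlgebraicClosure ℚ), A.LiesOverPrime ℓ ∧
    ∃ (ι : Type) (_ : Finite ι) (h : ι → Tors p ((ℓ : ℤ) ^ k) → AlgebraicClosure ℚ),
      (∀ j x, h j x ∈ A) ∧
      (∀ j, ∀ σ ∈ A.inertiaSubgroupIn ℚ, ∀ x,
        h j (torsAct p ((ℓ : ℤ) ^ k) σ x) = σ (h j x)) ∧
      (∀ j, ∀ σ ∈ A.decompositionSubgroup ℚ,
        twist (torsAct p ((ℓ : ℤ) ^ k)) σ (h j) ∈ genRing A.toSubring h) ∧
      (∀ x y, x ≠ y → ∃ j, h j x ≠ h j y) ∧
      (∀ j, (fun q : Tors p ((ℓ : ℤ) ^ k) × Tors p ((ℓ : ℤ) ^ k) => h j (q.1 + q.2)) ∈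
        pairRing A.toSubring h)

theorem flGen_of_core (hG : Stmt_FLGenCore) : Stmt_FLGen := by
  intro p _ ℓ _ hℓp k
  have hn : ((ℓ : ℤ) ^ k) ≠ 0 := pow_ne_zero _ (by exact_mod_cast (Fact.out : ℓ.Prime).ne_zero)
  exact ⟨tors_finite p _ hn, tors_act_cont p _ hn, hG p ℓ hℓp k⟩

/-- The frozen statement S19 from the core local generator input. -/
theorem result_of_FLGenCore (hG : Stmt_FLGenCore)
    (p : ℕ) [NeZero p] (ℓ : ℕ) [Fact ℓ.Prime] (hℓp : ¬ ℓ ∣ p) (k : ℕ) :
    ∃ (H : Type) (_ : CommRing H) (_ : HopfAlgebra (GaloisRep.ratLocalizedAt ℓ) H),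
      Module.Finite (GaloisRep.ratLocalizedAt ℓ) H ∧ Module.Flat (GaloisRep.ratLocalizedAt ℓ) H ∧
      Coalgebra.IsCocomm (GaloisRep.ratLocalizedAt ℓ) H ∧
      ∃ e : WithConv (H →ₐ[GaloisRep.ratLocalizedAt ℓ] AlgebraicClosure ℚ) ≃
          ↥(Submodule.torsionBy ℤ (JZero p) ((ℓ : ℤ) ^ k)),
        (∀ f g, e (f * g) = e f + e g) ∧
        ∀ (σ : AlgebraicClosure ℚ ≃ₐ[ℚ] AlgebraicClosure ℚ)
          (f g : WithConv (H →ₐ[GaloisRep.ratLocalizedAt ℓ] AlgebraicClosure ℚ)),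
          (∀ h : H, g h = σ (f h)) → ((e g : JZero p)) = σ • (e f : JZero p) :=
  result_of_FLGen (flGen_of_core hG) p ℓ hℓp k

end Fermat.Agent.S19.H32
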