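import Fermat.Agent.FL.Defs6
import Fermat.Agent.FL.H2_Level
import Fermat.Agent.S19.H32_FinCont
import Fermat.Agent.Lib.FrobExists

/-!
# S19 from the main theorem of G-FL at the tame levels (package ASM-C2, helper32)

`flGenCore_of_tame : FL.Stmt_FLTameC → Stmt_FLGenCore`, hence
`result_of_FLTameC : FL.Stmt_FLTameC → (frozen statement S19)`.

For a level `p` and a prime `ℓ ∤ p` choose a tame level `M ∈ {p, 2p, 3p}` (`ℓ ∤ M`), a valuation
subring `A` of `ℚ̄` over `ℓ`, and let `𝒮 = π (J₀(p)[ℓ^k]) ⊆ J₀(M)` where `π` is helper2's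
pull-back (`FL.H2.stmt_Level`: Galois equivariant, injective on torsion).  The coordinates of
`Stmt_FLTameC` on `𝒮` are transported to `J₀(p)[ℓ^k]` along `π`.
-/

set_option autoImplicit false
set_option linter.style.haveILetI false

open ModularCurve

namespace Fermat.Agent.S19.H32

open Fermat.Agent.Lib.HopfOrder Fermat.Agent.Lib.HopfOrderLoc Fermat.Agent.S19

/-- Composition with a map `e : Y → X`, as a ring homomorphism of function rings. -/
def compRingHom {K X Y : Type} [Field K] (e : Y → X) : (X → K) →+* (Y → K) :=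
  RingHom.pi fun y => Pi.evalRingHom (fun _ : X => K) (e y)

@[simp]
lemma compRingHom_apply {K X Y : Type} [Field K] (e : Y → X) (φ : X → K) (y : Y) :
    compRingHom e φ y = φ (e y) := rfl

/-- `genRing` is functorial for maps of the underlying sets. -/
lemma comp_mem_genRing {K X Y ι : Type} [Field K] (A : Subring K) (h : ι → X → K) (e : Y → X)
    {φ : X → K} (hφ : φ ∈ genRing A h) :
    (fun y => φ (e y)) ∈ genRing A (fun j y => h j (e y)) := by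
  have hle : genRing A h ≤ (genRing A (fun j y => h j (e y))).comap (compRingHom e) := by
    refine Subring.closure_le.mpr ?_
    rintro g (⟨a, ha, rfl⟩ | ⟨j, rfl⟩)
    · exact Subring.subset_closure (Or.inl ⟨a, ha, rfl⟩)
    · exact Subring.subset_closure (Or.inr ⟨j, rfl⟩)
  exact hle hφ

/-- `pairRing` is functorial for maps of the underlying sets. -/
lemma comp_mem_pairRing {K X Y ι : Type} [Field K] (A : Subring K) (h : ι → X → K) (e : Y → X)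
    {φ : X × X → K} (hφ : φ ∈ pairRing A h) :
    (fun q : Y × Y => φ (e q.1, e q.2)) ∈ pairRing A (fun j y => h j (e y)) := by
  have hle : pairRing A h ≤
      (pairRing A (fun j y => h j (e y))).comap
        (compRingHom (K := K) (fun q : Y × Y => (e q.1, e q.2))) := by
    refine Subring.closure_le.mpr ?_
    rintro g (⟨a, ha, rfl⟩ | ⟨j, rfl⟩ | ⟨j, rfl⟩)
    · exact Subring.subset_closure (Or.inl ⟨a, ha, rfl⟩)
    · exact Subring.subset_closure (Or.inr (Or.inl ⟨j, rfl⟩))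
    · exact Subring.subset_closure (Or.inr (Or.inr ⟨j, rfl⟩))
  exact hle hφ

/-- For `ℓ ∤ p` there is a tame level `M` with `p ∣ M ∣ 36 p` and `ℓ ∤ M`. -/
lemma exists_tame_level (p ℓ : ℕ) (hp : p ≠ 0) (hℓ : ℓ.Prime) (hℓp : ¬ ℓ ∣ p) :
    ∃ M : ℕ, M ≠ 0 ∧ p ∣ M ∧ M ∣ 36 * p ∧ ¬ ℓ ∣ M ∧ Fermat.Agent.FL.IsTame M ℓ := by
  by_cases h5 : 5 ≤ ℓ
  · exact ⟨p, hp, dvd_rfl, Dvd.intro_left 36 rfl, hℓp, Or.inl h5⟩
  have hℓ2 := hℓ.two_le
  have h23 : ℓ = 2 ∨ ℓ = 3 := by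
    have h4 : ℓ ≠ 4 := by
      rintro rfl
      exact absurd hℓ (by decide)
    omega
  rcases h23 with rfl | rfl
  · by_cases h3 : 3 ∣ p
    · exact ⟨p, hp, dvd_rfl, Dvd.intro_left 36 rfl, hℓp, Or.inr (Or.inr ⟨rfl, h3⟩)⟩
    · refine ⟨3 * p, by omega, Dvd.intro_left 3 rfl, ?_, ?_, Or.inr (Or.inr ⟨rfl, Dvd.intro p rfl⟩)⟩
      · exact ⟨12, by ring⟩
      · intro h
        rcases (Nat.Prime.dvd_mul Nat.prime_two).mp h with h | h
        · exact absurd h (by decide)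
        · exact hℓp h
  · by_cases h2 : 2 ∣ p
    · exact ⟨p, hp, dvd_rfl, Dvd.intro_left 36 rfl, hℓp, Or.inr (Or.inl ⟨rfl, h2⟩)⟩
    · refine ⟨2 * p, by omega, Dvd.intro_left 2 rfl, ?_, ?_, Or.inr (Or.inl ⟨rfl, Dvd.intro p rfl⟩)⟩
      · exact ⟨18, by ring⟩
      · intro h
        rcases (Nat.Prime.dvd_mul Nat.prime_three).mp h with h | h
        · exact absurd h (by decide)
        · exact hℓp h

/-- **ASM-C2**: the geometric input of S19 from the main theorem of G-FL at the tame levels. -/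
theorem flGenCore_of_tame (hT : Fermat.Agent.FL.Stmt_FLTameC) : Stmt_FLGenCore := by
  intro p _ ℓ _ hℓp k
  have hℓ : ℓ.Prime := Fact.out
  obtain ⟨M, hM0, hpM, hM36, hℓM, htame⟩ := exists_tame_level p ℓ (NeZero.ne p) hℓ hℓp
  haveI : NeZero M := ⟨hM0⟩
  obtain ⟨π, hπσ, hπinj⟩ := Fermat.Agent.FL.H2.stmt_Level p M hpM hM36
  obtain ⟨A, hA⟩ := Fermat.Agent.Lib.FrobExists.exists_liesOverPrime ℓ hℓ
  refine ⟨A, hA, ?_⟩
  have hn : ((ℓ : ℤ) ^ k) ≠ 0 := pow_ne_zero _ (by exact_mod_cast hℓ.ne_zero)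
  haveI := tors_finite p ((ℓ : ℤ) ^ k) hn
  set 𝒮 : Set (JZero M) := Set.range fun x : Tors p ((ℓ : ℤ) ^ k) => π (x : JZero p) with h𝒮
  have hfin : 𝒮.Finite := Set.finite_range _
  have hact : ∀ (σ : GQ) (x : Tors p ((ℓ : ℤ) ^ k)),
      π ((torsAct p ((ℓ : ℤ) ^ k) σ x : Tors p ((ℓ : ℤ) ^ k)) : JZero p) =
        σ • π (x : JZero p) := fun σ x => hπσ σ (x : JZero p)
  have hst : ∀ σ ∈ A.decompositionSubgroup ℚ, ∀ x ∈ 𝒮, σ • x ∈ 𝒮 := by
    rintro σ - _ ⟨x, rfl⟩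
    exact ⟨torsAct p ((ℓ : ℤ) ^ k) σ x, hact σ x⟩
  obtain ⟨ι, hι, h, hint, heq, hD, hsep, hcom⟩ := hT M ℓ hℓ hℓM htame A hA 𝒮 hfin hst
  set E : Tors p ((ℓ : ℤ) ^ k) → 𝒮 := fun x => ⟨π (x : JZero p), x, rfl⟩ with hE
  have hEinj : Function.Injective E := by
    intro x y hxy
    have h1 : π (x : JZero p) = π (y : JZero p) := congrArg Subtype.val hxy
    have h2 : π ((x - y : Tors p ((ℓ : ℤ) ^ k)) : JZero p) = 0 := by
      rw [Submodule.coe_sub, map_sub, h1, sub_self]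
    have h3 : (ℓ ^ k) • ((x - y : Tors p ((ℓ : ℤ) ^ k)) : JZero p) = 0 := by
      have := (Submodule.mem_torsionBy_iff _ _).mp (x - y).2
      rw [← natCast_zsmul]
      push_cast
      exact this
    have h4 := hπinj (ℓ ^ k) (pow_pos hℓ.pos k) _ h3 h2
    exact sub_eq_zero.mp (Subtype.ext h4)
  have hEact : ∀ (σ : GQ) (x : Tors p ((ℓ : ℤ) ^ k))
      (hx : σ • ((E x : 𝒮) : JZero M) ∈ 𝒮),
      E (torsAct p ((ℓ : ℤ) ^ k) σ x) = ⟨σ • ((E x : 𝒮) : JZero M), hx⟩ :=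
    fun σ x hx => Subtype.ext (hact σ x)
  have hEadd : ∀ (x y : Tors p ((ℓ : ℤ) ^ k))
      (hxy : ((E x : 𝒮) : JZero M) + ((E y : 𝒮) : JZero M) ∈ 𝒮),
      E (x + y) = ⟨((E x : 𝒮) : JZero M) + ((E y : 𝒮) : JZero M), hxy⟩ :=
    fun x y hxy => Subtype.ext (by
      show π ((x + y : Tors p ((ℓ : ℤ) ^ k)) : JZero p) = π (x : JZero p) + π (y : JZero p)
      rw [Submodule.coe_add, map_add])
  have hmemE : ∀ (σ : GQ) (x : Tors p ((ℓ : ℤ) ^ k)), σ • ((E x : 𝒮) : JZero M) ∈ 𝒮 :=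
    fun σ x => ⟨torsAct p ((ℓ : ℤ) ^ k) σ x, hact σ x⟩
  have haddE : ∀ (x y : Tors p ((ℓ : ℤ) ^ k)),
      ((E x : 𝒮) : JZero M) + ((E y : 𝒮) : JZero M) ∈ 𝒮 :=
    fun x y => ⟨x + y, by
      show π ((x + y : Tors p ((ℓ : ℤ) ^ k)) : JZero p) = π (x : JZero p) + π (y : JZero p)
      rw [Submodule.coe_add, map_add]⟩
  refine ⟨ι, hι, fun j x => h j (E x), fun j x => hint j _, ?_, ?_, ?_, ?_⟩
  · intro j σ hσ x
    show h j (E (torsAct p ((ℓ : ℤ) ^ k) σ x)) = σ (h j (E x))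
    rw [hEact σ x (hmemE σ x)]
    exact heq j σ hσ (E x) (hmemE σ x)
  · intro j σ hσ
    obtain ⟨φ, hφ, hφe⟩ := hD j σ hσ
    have key : twist (torsAct p ((ℓ : ℤ) ^ k)) σ (fun x => h j (E x)) = fun x => φ (E x) := by
      funext x
      show σ (h j (E (torsAct p ((ℓ : ℤ) ^ k) σ⁻¹ x))) = φ (E x)
      have hx : x = torsAct p ((ℓ : ℤ) ^ k) σ (torsAct p ((ℓ : ℤ) ^ k) σ⁻¹ x) := by
        rw [← torsAct_mul, mul_inv_cancel, torsAct_one]
      have h1 := hφe (E (torsAct p ((ℓ : ℤ) ^ k) σ⁻¹ x)) (hmemE σ _)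
      rw [← hEact σ _ (hmemE σ _), ← hx] at h1
      exact h1.symm
    rw [key]
    exact comp_mem_genRing A.toSubring h E hφ
  · intro x y hxy
    exact hsep (E x) (E y) (hEinj.ne hxy)
  · intro j
    obtain ⟨φ, hφ, hφe⟩ := hcom j
    have key : (fun q : Tors p ((ℓ : ℤ) ^ k) × Tors p ((ℓ : ℤ) ^ k) => h j (E (q.1 + q.2))) =
        fun q => φ (E q.1, E q.2) := by
      funext q
      rw [hφe (E q.1) (E q.2) (haddE q.1 q.2), hEadd q.1 q.2 (haddE q.1 q.2)]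
    rw [key]
    exact comp_mem_pairRing A.toSubring h E hφ

/-- The frozen statement S19 from the main theorem of G-FL at the tame levels. -/
theorem result_of_FLTameC (hT : Fermat.Agent.FL.Stmt_FLTameC)
    (p : ℕ) [NeZero p] (ℓ : ℕ) [Fact ℓ.Prime] (hℓp : ¬ ℓ ∣ p) (k : ℕ) :
    ∃ (H : Type) (_ : CommRing H) (_ : HopfAlgebra (GaloisRep.ratLocalizedAt ℓ) H),
      Module.Finite (GaloisRep.ratLocalizedAt ℓ) H ∧ Module.Flat (GaloisRep.ratLocalizedAt ℓ) H ∧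
      Coalgebra.IsCocomm (GaloisRep.ratLocalizedAt ℓ) H ∧
      ∃ e : WithConv (H →ₐ[GaloisRep.ratLocalizedAt ℓ] AlgebraicClosure ℚ) ≃
          ↥(Submodule.torsionBy ℤ (JZero p) ((ℓ : ℤ) ^ k)),
        (∀ f g, e (f * g) = e f + e g) ∧
        ∀ (σ : AlgebraicClosure ℚ ≃ₐ[ℚ] AlgebraicClosure ℚ)
          (f g : WithConv (H →ₐ[GaloisRep.ratLocalizedAt ℓ] AlgebraicClosure ℚ)),
          (∀ h : H, g h = σ (f h)) → ((e g : JZero p)) = σ • (e f : JZero p) :=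
  result_of_FLGenCore (flGenCore_of_tame hT) p ℓ hℓp k

end Fermat.Agent.S19.H32
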