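import Fermat.Agent.Lib.HopfOrder
import Fermat.Prelude.Def_ModularCurve_ArithmeticGalois
import Fermat.Prelude.Def_GaloisRep_Flat

/-!
# S19 (finite flat model of `J₀(p)[ℓ^k]`, `ℓ ∤ p`): wiring

`Fermat.Agent.S19.result_of_hopfOrder` proves the frozen statement S19 from ONE explicit input,
`Stmt_HopfOrder`: the torsion group `J₀(p)[ℓ^k]` is finite and carries a *Hopf order* over
`ℤ_(ℓ)`, i.e. a commutative `ℤ_(ℓ)`-algebra `H`, finitely generated as a module, of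
Galois-equivariant functions on `J₀(p)[ℓ^k]` which separates points and is closed under
`f ↦ ((x, y) ↦ f (x + y))` (see `Fermat.Agent.Lib.HopfOrder.IsHopfOrder`).
No Hopf algebra axioms have to be checked by the provider of the input.
-/

set_option autoImplicit false

open ModularCurve

namespace Fermat.Agent.S19

open Fermat.Agent.Lib.HopfOrder

/-- The absolute Galois group of `ℚ`. -/
abbrev GQ : Type := AlgebraicClosure ℚ ≃ₐ[ℚ] AlgebraicClosure ℚ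

/-- The torsion group `J₀(p)[n]`. -/
abbrev Tors (p : ℕ) (n : ℤ) : Type := ↥(Submodule.torsionBy ℤ (JZero p) n)

lemma smul_mem_torsionBy (p : ℕ) (n : ℤ) (σ : GQ) (x : JZero p)
    (hx : x ∈ Submodule.torsionBy ℤ (JZero p) n) :
    σ • x ∈ Submodule.torsionBy ℤ (JZero p) n := by
  rw [Submodule.mem_torsionBy_iff] at hx ⊢
  have := map_zsmul (DistribSMul.toAddMonoidHom (JZero p) σ) n x
  simp only [DistribSMul.toAddMonoidHom_apply] at this
  rw [← this, hx, smul_zero]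

/-- The Galois action on `J₀(p)[n]`. -/
noncomputable def torsAct (p : ℕ) (n : ℤ) (σ : GQ) (x : Tors p n) : Tors p n :=
  ⟨σ • (x : JZero p), smul_mem_torsionBy p n σ x x.2⟩

/-- **Input of S19**: `J₀(p)[ℓ^k]` is finite and has a Hopf order over `ℤ_(ℓ)`. -/
def Stmt_HopfOrder : Prop :=
  ∀ (p : ℕ) [NeZero p] (ℓ : ℕ) [Fact ℓ.Prime], ¬ ℓ ∣ p → ∀ k : ℕ,
    Finite (Tors p ((ℓ : ℤ) ^ k)) ∧
    ∃ (H : Type) (_ : CommRing H) (_ : Algebra (GaloisRep.ratLocalizedAt ℓ) H)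
      (ev : Tors p ((ℓ : ℤ) ^ k) → (H →ₐ[GaloisRep.ratLocalizedAt ℓ] AlgebraicClosure ℚ)),
      IsHopfOrder (G := GQ) (torsAct p ((ℓ : ℤ) ^ k)) ev

/-- The frozen statement S19 from the Hopf order input. -/
theorem result_of_hopfOrder (h : Stmt_HopfOrder)
    (p : ℕ) [NeZero p] (ℓ : ℕ) [Fact ℓ.Prime] (hℓp : ¬ ℓ ∣ p) (k : ℕ) :
    ∃ (H : Type) (_ : CommRing H) (_ : HopfAlgebra (GaloisRep.ratLocalizedAt ℓ) H),
      Module.Finite (GaloisRep.ratLocalizedAt ℓ) H ∧ Module.Flat (GaloisRep.ratLocalizedAt ℓ) H ∧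
      Coalgebra.IsCocomm (GaloisRep.ratLocalizedAt ℓ) H ∧
      ∃ e : WithConv (H →ₐ[GaloisRep.ratLocalizedAt ℓ] AlgebraicClosure ℚ) ≃
          ↥(Submodule.torsionBy ℤ (JZero p) ((ℓ : ℤ) ^ k)),
        (∀ f g, e (f * g) = e f + e g) ∧
        ∀ (σ : AlgebraicClosure ℚ ≃ₐ[ℚ] AlgebraicClosure ℚ)
          (f g : WithConv (H →ₐ[GaloisRep.ratLocalizedAt ℓ] AlgebraicClosure ℚ)),
          (∀ h : H, g h = σ (f h)) → ((e g : JZero p)) = σ • (e f : JZero p) := by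
  obtain ⟨hfin, H, i1, i2, ev, hH⟩ := h p ℓ hℓp k
  obtain ⟨H', j1, j2, h1, h2, h3, e, he, hσ⟩ := flat_of_isHopfOrder ℓ _ ev hH
  exact ⟨H', j1, j2, h1, h2, h3, e, he, fun σ f g hfg => congrArg Subtype.val (hσ σ f g hfg)⟩

end Fermat.Agent.S19
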