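import Fermat.Agent.Lib.HopfOrderLoc.LocalGen
import Fermat.Agent.S19.Wiring

/-!
# S19 from LOCAL generators (G-FL package ASM-W, helper32)

`result_of_FLGen : Stmt_FLGen → (frozen statement S19)`.

`Stmt_FLGen` is the geometric input of S19 in the form produced by the route of
`NOTES/plan/G_FL.md`: for every level `p`, prime `ℓ ∤ p` and `k`,

* `J₀(p)[ℓ^k]` is finite and `G_ℚ` acts on it through a finite quotient;
* for ONE valuation subring `A` of `ℚ̄` over `ℓ` there are finitely many functions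
  `h j : J₀(p)[ℓ^k] → ℚ̄` with values in `A`, equivariant for the inertia group of `A`,
  separating points, such that the ring `genRing A h` is stable under the decomposition group
  of `A` and `(x, y) ↦ h j (x + y)` lies in `pairRing A h`.

The descent to `ℤ_(ℓ)` and all Hopf algebra axioms are supplied by
`Fermat.Agent.Lib.HopfOrderLoc.flat_of_local_generators`.
-/

set_option autoImplicit false
set_option linter.style.haveILetI false

open ModularCurve

namespace Fermat.Agent.S19.H32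

open Fermat.Agent.Lib.HopfOrder Fermat.Agent.Lib.HopfOrderLoc Fermat.Agent.S19

/-- **Geometric input of S19** (local generators at one place over `ℓ`). -/
def Stmt_FLGen : Prop :=
  ∀ (p : ℕ) [NeZero p] (ℓ : ℕ) [Fact ℓ.Prime], ¬ ℓ ∣ p → ∀ k : ℕ,
    Finite (Tors p ((ℓ : ℤ) ^ k)) ∧
    (∃ L : IntermediateField ℚ (AlgebraicClosure ℚ), FiniteDimensional ℚ L ∧
      ∀ σ ∈ L.fixingSubgroup, ∀ x : Tors p ((ℓ : ℤ) ^ k), torsAct p ((ℓ : ℤ) ^ k) σ x = x) ∧
    ∃ A : ValuationSubring (AlgebraicClosure ℚ), A.LiesOverPrime ℓ ∧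
    ∃ (ι : Type) (_ : Finite ι) (h : ι → Tors p ((ℓ : ℤ) ^ k) → AlgebraicClosure ℚ),
      (∀ j x, h j x ∈ A) ∧
      (∀ j, ∀ σ ∈ A.inertiaSubgroupIn ℚ, ∀ x,
        h j (torsAct p ((ℓ : ℤ) ^ k) σ x) = σ (h j x)) ∧
      (∀ j, ∀ σ ∈ A.decompositionSubgroup ℚ,
        twist (torsAct p ((ℓ : ℤ) ^ k)) σ (h j) ∈ genRing A.toSubring h) ∧
      (∀ x y, x ≠ y → ∃ j, h j x ≠ h j y) ∧
      (∀ j, (fun q : Tors p ((ℓ : ℤ) ^ k) × Tors p ((ℓ : ℤ) ^ k) => h j (q.1 + q.2)) ∈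
        pairRing A.toSubring h)

lemma torsAct_one (p : ℕ) (n : ℤ) (x : Tors p n) : torsAct p n 1 x = x :=
  Subtype.ext (one_smul _ (x : JZero p))

lemma torsAct_mul (p : ℕ) (n : ℤ) (σ τ : GQ) (x : Tors p n) :
    torsAct p n (σ * τ) x = torsAct p n σ (torsAct p n τ x) :=
  Subtype.ext (mul_smul σ τ (x : JZero p))

lemma torsAct_add (p : ℕ) (n : ℤ) (σ : GQ) (x y : Tors p n) :
    torsAct p n σ (x + y) = torsAct p n σ x + torsAct p n σ y :=
  Subtype.ext (smul_add σ (x : JZero p) (y : JZero p))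

/-- The frozen statement S19 from the local generator input. -/
theorem result_of_FLGen (hG : Stmt_FLGen)
    (p : ℕ) [NeZero p] (ℓ : ℕ) [Fact ℓ.Prime] (hℓp : ¬ ℓ ∣ p) (k : ℕ) :
    ∃ (H : Type) (_ : CommRing H) (_ : HopfAlgebra (GaloisRep.ratLocalizedAt ℓ) H),
      Module.Finite (GaloisRep.ratLocalizedAt ℓ) H ∧ Module.Flat (GaloisRep.ratLocalizedAt ℓ) H ∧
      Coalgebra.IsCocomm (GaloisRep.ratLocalizedAt ℓ) H ∧
      ∃ e : WithConv (H →ₐ[GaloisRep.ratLocalizedAt ℓ] AlgebraicClosure ℚ) ≃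
          ↥(Submodule.torsionBy ℤ (JZero p) ((ℓ : ℤ) ^ k)),
        (∀ f g, e (f * g) = e f + e g) ∧
        ∀ (σ : AlgebraicClosure ℚ ≃ₐ[ℚ] AlgebraicClosure ℚ)
          (f g : WithConv (H →ₐ[GaloisRep.ratLocalizedAt ℓ] AlgebraicClosure ℚ)),
          (∀ h : H, g h = σ (f h)) → ((e g : JZero p)) = σ • (e f : JZero p) := by
  obtain ⟨hfin, hcont, A, hA, ι, hι, h, hint, heq, hst, hsep, hcom⟩ := hG p ℓ hℓp k
  haveI := hfin
  haveI := hι
  obtain ⟨H', j1, j2, h1, h2, h3, e, he, hσ⟩ :=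
    flat_of_local_generators ℓ (Fact.out : ℓ.Prime) A hA (torsAct p ((ℓ : ℤ) ^ k)) h
      (torsAct_one p _) (torsAct_mul p _) (torsAct_add p _) hcont hint heq hst hsep hcom
  exact ⟨H', j1, j2, h1, h2, h3, e, he, fun σ f g hfg => congrArg Subtype.val (hσ σ f g hfg)⟩

end Fermat.Agent.S19.H32
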